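import Mathlib
import Fermat.Agent.Red.Values

/-!
# MOONSHOT S19, node (G1-T), part 0: the Taylor chain at a place of degree one (generic)

`F/K` a function field in the Prelude language, `P` a place of degree one, `t : F` with
`ord_P t = 1`, `h : F` regular at `P`.

* `taylorChain P t h n` : `h₀ = h`, `hₙ₊₁ = (hₙ - hₙ(P)) / t`; `taylorCoeff P t h n = hₙ(P)`.
* `taylorChain_mem` : the chain stays in the valuation ring of `P`.
* `eq_sum_add_taylorChain` : `h = ∑_{i<n} aᵢ tⁱ + tⁿ hₙ`.
* `taylorCoeff_add`, `taylorCoeff_smul`, `taylorCoeff_algebraMap` : linearity.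
* `le_ord_iff_taylorCoeff` : for `h ≠ 0`, `n ≤ ord_P h ↔ ∀ i < n, aᵢ = 0`;
  `ord_eq_iff_taylorCoeff` : `ord_P h = n ↔ (∀ i < n, aᵢ = 0) ∧ aₙ ≠ 0`.
-/

set_option autoImplicit false

namespace Fermat.Agent.FF2.Disc

open AlgebraicCurve Fermat.Agent.Red Fermat.Agent.X0 WithZero

variable {K F : Type*} [Field K] [Field F] [Algebra K F]

/-- The Taylor chain `h₀ = h`, `hₙ₊₁ = (hₙ - hₙ(P)) / t`. -/
noncomputable def taylorChain (P : Place K F) (t h : F) : ℕ → F
  | 0 => h
  | n + 1 => (taylorChain P t h n - algebraMap K F (evalAt P (taylorChain P t h n))) * t⁻¹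

/-- The Taylor coefficients `aₙ = hₙ(P)`. -/
noncomputable def taylorCoeff (P : Place K F) (t h : F) (n : ℕ) : K :=
  evalAt P (taylorChain P t h n)

section

variable (P : Place K F) (t h : F)

@[simp] theorem taylorChain_zero : taylorChain P t h 0 = h := rfl

theorem taylorChain_succ (n : ℕ) :
    taylorChain P t h (n + 1)
      = (taylorChain P t h n - algebraMap K F (taylorCoeff P t h n)) * t⁻¹ := rfl

theorem taylorChain_succ' (n : ℕ) :
    taylorChain P t h (n + 1) = taylorChain P t (taylorChain P t h 1) n := by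
  induction n with
  | zero => rfl
  | succ n ih =>
    rw [taylorChain_succ, ih, taylorChain_succ P t (taylorChain P t h 1) n]
    unfold taylorCoeff
    rw [ih]

/-- One step: `hₙ = aₙ + t hₙ₊₁`. -/
theorem taylorChain_eq (ht : t ≠ 0) (n : ℕ) :
    taylorChain P t h n
      = algebraMap K F (taylorCoeff P t h n) + t * taylorChain P t h (n + 1) := by
  rw [taylorChain_succ, mul_comm (taylorChain P t h n - _), ← mul_assoc, mul_inv_cancel₀ ht,
    one_mul]
  ring

/-- `h = ∑_{i<n} aᵢ tⁱ + tⁿ hₙ`. -/
theorem eq_sum_add_taylorChain (ht : t ≠ 0) (n : ℕ) :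
    h = ∑ i ∈ Finset.range n, algebraMap K F (taylorCoeff P t h i) * t ^ i
      + t ^ n * taylorChain P t h n := by
  induction n with
  | zero => simp
  | succ n ih =>
    have h1 := taylorChain_eq P t h ht n
    rw [Finset.sum_range_succ]
    calc h = ∑ i ∈ Finset.range n, algebraMap K F (taylorCoeff P t h i) * t ^ i
          + t ^ n * taylorChain P t h n := ih
      _ = _ := by rw [h1]; ring

end

section Regular

variable {P : Place K F} (hdeg : P.deg = 1) {t : F} (ht : P.ord t = 1)

include ht in
theorem ne_zero_of_ord_eq_one : t ≠ 0 := by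
  rintro rfl
  simp at ht

include hdeg ht in
/-- Division by a local parameter: if `h` is regular at `P` then so is `(h - h(P)) / t`. -/
theorem div_mem_valuationSubring {h : F} (hh : h ∈ P.toValuationSubring) :
    (h - algebraMap K F (evalAt P h)) * t⁻¹ ∈ P.toValuationSubring := by
  have ht0 := ne_zero_of_ord_eq_one ht
  by_cases hy0 : h - algebraMap K F (evalAt P h) = 0
  · rw [hy0, zero_mul]
    exact zero_mem _
  apply Place.mem_of_ord_nonneg P
  rw [P.ord_mul hy0 (inv_ne_zero ht0), P.ord_inv, ht]
  have := (ord_sub_evalAt_pos P hdeg hh).resolve_left fun h0 => hy0 (sub_eq_zero.2 h0)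
  omega

include hdeg ht in
theorem taylorChain_mem {h : F} (hh : h ∈ P.toValuationSubring) (n : ℕ) :
    taylorChain P t h n ∈ P.toValuationSubring := by
  induction n with
  | zero => exact hh
  | succ n ih => exact div_mem_valuationSubring hdeg ht ih

include hdeg ht in
theorem taylorChain_add {h h' : F} (hh : h ∈ P.toValuationSubring)
    (hh' : h' ∈ P.toValuationSubring) (n : ℕ) :
    taylorChain P t (h + h') n = taylorChain P t h n + taylorChain P t h' n := by
  induction n with
  | zero => rfl
  | succ n ih =>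
    rw [taylorChain_succ, taylorChain_succ, taylorChain_succ]
    unfold taylorCoeff
    rw [ih, evalAt_add P hdeg (taylorChain_mem hdeg ht hh n) (taylorChain_mem hdeg ht hh' n),
      map_add]
    ring

include hdeg ht in
theorem taylorCoeff_add {h h' : F} (hh : h ∈ P.toValuationSubring)
    (hh' : h' ∈ P.toValuationSubring) (n : ℕ) :
    taylorCoeff P t (h + h') n = taylorCoeff P t h n + taylorCoeff P t h' n := by
  unfold taylorCoeff
  rw [taylorChain_add hdeg ht hh hh',
    evalAt_add P hdeg (taylorChain_mem hdeg ht hh n) (taylorChain_mem hdeg ht hh' n)]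

include hdeg ht in
theorem taylorChain_smul (a : K) {h : F} (hh : h ∈ P.toValuationSubring) (n : ℕ) :
    taylorChain P t (a • h) n = a • taylorChain P t h n := by
  induction n with
  | zero => rfl
  | succ n ih =>
    rw [taylorChain_succ, taylorChain_succ]
    unfold taylorCoeff
    rw [ih, evalAt_smul P hdeg a (taylorChain_mem hdeg ht hh n), map_mul, Algebra.smul_def,
      Algebra.smul_def]
    ring

include hdeg ht in
theorem taylorCoeff_smul (a : K) {h : F} (hh : h ∈ P.toValuationSubring) (n : ℕ) :
    taylorCoeff P t (a • h) n = a * taylorCoeff P t h n := by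
  unfold taylorCoeff
  rw [taylorChain_smul hdeg ht a hh, evalAt_smul P hdeg a (taylorChain_mem hdeg ht hh n)]

include ht in
/-- If the first `n` Taylor coefficients vanish then `h = tⁿ hₙ`. -/
theorem eq_pow_mul_of_taylorCoeff_eq_zero {h : F} {n : ℕ}
    (h0 : ∀ i < n, taylorCoeff P t h i = 0) : h = t ^ n * taylorChain P t h n := by
  have h1 := eq_sum_add_taylorChain P t h (ne_zero_of_ord_eq_one ht) n
  rw [Finset.sum_eq_zero (fun i hi => by
    rw [h0 i (Finset.mem_range.1 hi), map_zero, zero_mul]), zero_add] at h1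
  exact h1

include hdeg ht in
/-- For `h ≠ 0` regular at `P`: `n ≤ ord_P h` iff the first `n` Taylor coefficients vanish. -/
theorem le_ord_iff_taylorCoeff {h : F} (hh : h ∈ P.toValuationSubring) (h0 : h ≠ 0) (n : ℕ) :
    (n : ℤ) ≤ P.ord h ↔ ∀ i < n, taylorCoeff P t h i = 0 := by
  have ht0 := ne_zero_of_ord_eq_one ht
  induction n with
  | zero => simpa using Place.ord_nonneg_of_mem P hh
  | succ n ih =>
    constructor
    · intro hle i hi
      have hn : ∀ i < n, taylorCoeff P t h i = 0 := ih.1 (by push_cast at hle; omega)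
      rcases Nat.lt_succ_iff_lt_or_eq.1 hi with hlt | rfl
      · exact hn i hlt
      · -- `h = t^n h_n`, `ord h_n ≥ 1` hence `h_n(P) = 0`
        have hEq := eq_pow_mul_of_taylorCoeff_eq_zero ht hn
        have hc0 : taylorChain P t h i ≠ 0 := by
          intro hc
          rw [hc, mul_zero] at hEq
          exact h0 hEq
        have hord : P.ord h = i + P.ord (taylorChain P t h i) := by
          conv_lhs => rw [hEq]
          rw [P.ord_mul (pow_ne_zero _ ht0) hc0, ← zpow_natCast, P.ord_zpow, ht, mul_one]
        have hpos : 0 < P.ord (taylorChain P t h i) := by push_cast at hle; omega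
        apply evalAt_eq_of_isValueAt
        rw [isValueAt_zero_iff, adicValuation_lt_one_iff]
        exact Or.inr hpos
    · intro hall
      have hn : ∀ i < n, taylorCoeff P t h i = 0 := fun i hi => hall i (Nat.lt_succ_of_lt hi)
      have hEq := eq_pow_mul_of_taylorCoeff_eq_zero ht hn
      have hc0 : taylorChain P t h n ≠ 0 := by
        intro hc
        rw [hc, mul_zero] at hEq
        exact h0 hEq
      have hord : P.ord h = n + P.ord (taylorChain P t h n) := by
        conv_lhs => rw [hEq]
        rw [P.ord_mul (pow_ne_zero _ ht0) hc0, ← zpow_natCast, P.ord_zpow, ht, mul_one]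
      have hmem := taylorChain_mem hdeg ht hh n
      have hval := isValueAt_evalAt P hdeg hmem
      have hz : evalAt P (taylorChain P t h n) = 0 := hall n (Nat.lt_succ_self n)
      rw [hz, isValueAt_zero_iff, adicValuation_lt_one_iff] at hval
      have hpos := hval.resolve_left hc0
      push_cast
      omega

include hdeg ht in
/-- For `h ≠ 0` regular at `P`: `ord_P h = n` iff `a₀ = ⋯ = aₙ₋₁ = 0` and `aₙ ≠ 0`. -/
theorem ord_eq_iff_taylorCoeff {h : F} (hh : h ∈ P.toValuationSubring) (h0 : h ≠ 0) (n : ℕ) :
    P.ord h = n ↔ (∀ i < n, taylorCoeff P t h i = 0) ∧ taylorCoeff P t h n ≠ 0 := by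
  have h1 := le_ord_iff_taylorCoeff hdeg ht hh h0 n
  have h2 := le_ord_iff_taylorCoeff hdeg ht hh h0 (n + 1)
  constructor
  · intro heq
    refine ⟨h1.1 (by omega), fun hn => ?_⟩
    have : ((n + 1 : ℕ) : ℤ) ≤ P.ord h := h2.2 fun i hi => by
      rcases Nat.lt_succ_iff_lt_or_eq.1 hi with hlt | rfl
      · exact h1.1 (by omega) i hlt
      · exact hn
    push_cast at this
    omega
  · rintro ⟨hall, hn⟩
    have hle := h1.2 hall
    have hnot : ¬ ((n + 1 : ℕ) : ℤ) ≤ P.ord h := fun hle' => hn (h2.1 hle' n (Nat.lt_succ_self n))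
    push_cast at hnot
    omega

end Regular

end Fermat.Agent.FF2.Disc
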