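import Mathlib
import Fermat.Agent.FF2.Disc.Chain

/-!
# MOONSHOT S19, node (G1-T), part 4 (T5): semilinear (Galois) equivariance of values and of the
Taylor chain

`g : SemilinearAut K F` (the Prelude's semilinear automorphisms of a function field, e.g. the
arithmetic Galois action on `F̄_N = ℚ̄ · F_N`), acting on functions and on places.

* `isValueAt_smul_iff` : `IsValueAt (g • P) (g • h) (g c) ↔ IsValueAt P h c`;
* `evalAt_smul` : `evalAt (g • P) (g • h) = g (evalAt P h)` (unconditionally);
* `taylorChain_smul_aut`, `taylorCoeff_smul_aut` : the Taylor chain and the Taylor coefficients are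
  equivariant;
* `taylorCoeff_fixed` : **rationality** — if `g` fixes the place, the parameter and the function,
  then the Taylor coefficients are fixed by the base automorphism of `g`.
-/

set_option autoImplicit false

namespace Fermat.Agent.FF2.Disc

open AlgebraicCurve Fermat.Agent.Red Fermat.Agent.X0 WithZero

variable {K F : Type*} [Field K] [Field F] [Algebra K F]

theorem smul_sub_algebraMap (g : SemilinearAut K F) (h : F) (c : K) :
    g • (h - algebraMap K F c) = g • h - algebraMap K F (SemilinearAut.baseAut g c) := by
  rw [smul_sub, SemilinearAut.smul_algebraMap]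

theorem isValueAt_smul_iff (g : SemilinearAut K F) (P : Place K F) (h : F) (c : K) :
    IsValueAt (g • P) (g • h) (SemilinearAut.baseAut g c) ↔ IsValueAt P h c := by
  rw [isValueAt_iff, isValueAt_iff, ← smul_sub_algebraMap, SemilinearAut.ord_smul,
    ← SemilinearAut.smul_algebraMap]
  constructor
  · rintro (h1 | h1)
    · exact Or.inl (MulAction.injective g h1)
    · exact Or.inr h1
  · rintro (h1 | h1)
    · exact Or.inl (congrArg (g • ·) h1)
    · exact Or.inr h1

/-- Values are equivariant: `(g h)(g P) = g (h(P))`. -/
theorem evalAt_smul_aut (g : SemilinearAut K F) (P : Place K F) (h : F) :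
    evalAt (g • P) (g • h) = SemilinearAut.baseAut g (evalAt P h) := by
  classical
  by_cases hex : ∃ c : K, IsValueAt P h c
  · obtain ⟨c, hc⟩ := hex
    rw [evalAt_eq_of_isValueAt hc,
      evalAt_eq_of_isValueAt ((isValueAt_smul_iff g P h c).2 hc)]
  · have hex' : ¬ ∃ c : K, IsValueAt (g • P) (g • h) c := by
      rintro ⟨c, hc⟩
      apply hex
      refine ⟨(SemilinearAut.baseAut g).symm c, (isValueAt_smul_iff g P h _).1 ?_⟩
      rwa [RingEquiv.apply_symm_apply]
    unfold evalAt
    rw [dif_neg hex, dif_neg hex', map_zero]

theorem taylorChain_smul_aut (g : SemilinearAut K F) (P : Place K F) (t h : F) (n : ℕ) :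
    taylorChain (g • P) (g • t) (g • h) n = g • taylorChain P t h n := by
  induction n with
  | zero => rfl
  | succ n ih =>
    rw [taylorChain_succ, taylorChain_succ]
    unfold taylorCoeff
    rw [ih, evalAt_smul_aut, smul_mul', smul_sub, SemilinearAut.smul_algebraMap, smul_inv'']

theorem taylorCoeff_smul_aut (g : SemilinearAut K F) (P : Place K F) (t h : F) (n : ℕ) :
    taylorCoeff (g • P) (g • t) (g • h) n = SemilinearAut.baseAut g (taylorCoeff P t h n) := by
  unfold taylorCoeff
  rw [taylorChain_smul_aut, evalAt_smul_aut]

/-- **Rationality of the Taylor coefficients**: if `g` fixes the place, the parameter and the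
function, the Taylor coefficients are fixed by the base automorphism of `g`. -/
theorem taylorCoeff_fixed (g : SemilinearAut K F) {P : Place K F} {t h : F} (hP : g • P = P)
    (ht : g • t = t) (hh : g • h = h) (n : ℕ) :
    SemilinearAut.baseAut g (taylorCoeff P t h n) = taylorCoeff P t h n := by
  rw [← taylorCoeff_smul_aut, hP, ht, hh]

/-- Values at a fixed place of a fixed function are fixed. -/
theorem evalAt_fixed (g : SemilinearAut K F) {P : Place K F} {h : F} (hP : g • P = P)
    (hh : g • h = h) : SemilinearAut.baseAut g (evalAt P h) = evalAt P h := by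
  rw [← evalAt_smul_aut, hP, hh]

end Fermat.Agent.FF2.Disc
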