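import Mathlib
import Fermat.Agent.Red.LocalParam

/-!
# MOONSHOT S19, node (G1-T), part 1: residue discs with an integral coordinate, division by the
coordinate

Everything is over an abstract `Fermat.Agent.Red.RedSetup A π` (file `Red/Setup.lean`), so it
applies verbatim to `Val.redSetupBar` (the good reduction of `X₀(N)` at `ℓ ∤ N`).

* `DiscCoord S Z` : a place `P₀` with `r P₀ ∉ r(Z)` and an integral local parameter `t ∈ B_Z` at
  `P₀` (exactly the output of `RedSetup.exists_integral_localParameter`);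
  `DiscCoord.exists_of_genus_eq` : existence.
* `DiscCoord.Zplus` : `Z` together with the other zeros of `t`; `DiscCoord.disc` : the residue
  disc of `P₀`.
* `DiscCoord.div_mem_chart` : **(T1)** for `h ∈ B_{Z⁺}` the quotient `(h - h(P₀)) / t` is again in
  `B_{Z⁺}`.
-/

set_option autoImplicit false

namespace Fermat.Agent.FF2.Disc

open AlgebraicCurve Fermat.Agent.Red Fermat.Agent.X0 WithZero

variable {K F k Ft : Type*} [Field K] [Field F] [Algebra K F] [Field k] [Field Ft]
  [Algebra k Ft] {A : ValuationSubring K} {π : A →+* k}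

/-- A residue disc with an integral coordinate: a place `P₀` whose reduction is not in `r(Z)` and
an element `t` of the chart ring `B_Z` which is a local parameter at `P₀`, whose reduction is a
local parameter at `r P₀`, and which has no other zero in the residue disc of `P₀`. -/
structure DiscCoord (S : RedSetup (F := F) (Ft := Ft) A π) (Z : Set (Place K F)) where
  /-- the centre of the disc -/
  P₀ : Place K F
  /-- the coordinate -/
  t : F
  hP₀ : S.r P₀ ∉ S.r '' Z
  ht : t ∈ S.chart Z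
  hres : S.resF t ≠ 0
  hord : P₀.ord t = 1
  hordres : (S.r P₀).ord (S.resF t) = 1
  hother : ∀ P : Place K F, S.r P = S.r P₀ → P ≠ P₀ → P.ord t = 0

namespace DiscCoord

variable {S : RedSetup (F := F) (Ft := Ft) A π} {Z : Set (Place K F)}

/-- Existence of disc coordinates (from `RedSetup.exists_integral_localParameter`). -/
theorem exists_of_genus_eq [Infinite k] (hπ : Function.Surjective π)
    (hF : RiemannPkg K F) (hFt : RiemannPkg k Ft) (hg : genusFF k Ft = genusFF K F)
    (P₀ : Place K F) (Z : Finset (Place K F)) (hZ : Z.Nonempty)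
    (hP₀ : S.r P₀ ∉ S.r '' (Z : Set (Place K F))) :
    ∃ C : DiscCoord S (Z : Set (Place K F)), C.P₀ = P₀ := by
  obtain ⟨t, ht, hord, hres, hordres, hother⟩ :=
    S.exists_integral_localParameter hπ hF hFt hg P₀ Z hZ hP₀
  exact ⟨⟨P₀, t, hP₀, ht, hres, hord, hordres, hother⟩, rfl⟩

variable (C : DiscCoord S Z)

theorem t_ne_zero : C.t ≠ 0 := S.ne_zero_of_resF_ne_zero C.hres

theorem t_inv_mem : C.t⁻¹ ∈ S.O := S.inv_mem_of_resF_ne_zero C.hres

/-- `Z` together with the zeros of `t` other than `P₀`. -/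
def Zplus : Set (Place K F) := Z ∪ {P | P ≠ C.P₀ ∧ 0 < P.ord C.t}

theorem subset_Zplus : Z ⊆ C.Zplus := Set.subset_union_left

/-- The residue disc of `P₀`. -/
def disc : Set (Place K F) := {P | S.r P = S.r C.P₀}

theorem mem_disc {P : Place K F} : P ∈ C.disc ↔ S.r P = S.r C.P₀ := Iff.rfl

theorem P₀_mem_disc : C.P₀ ∈ C.disc := rfl

theorem r_P₀_notMem : S.r C.P₀ ∉ S.r '' C.Zplus := by
  rintro ⟨P, hP | ⟨hne, hpos⟩, hr⟩
  · exact C.hP₀ ⟨P, hP, hr⟩
  · have := C.hother P hr hne
    omega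

theorem r_notMem_of_mem_disc {P : Place K F} (hP : P ∈ C.disc) : S.r P ∉ S.r '' C.Zplus := by
  rw [C.mem_disc.1 hP]
  exact C.r_P₀_notMem

theorem notMem_Zplus_of_mem_disc {P : Place K F} (hP : P ∈ C.disc) : P ∉ C.Zplus :=
  fun h => C.r_notMem_of_mem_disc hP ⟨P, h, rfl⟩

theorem t_mem_chart_Zplus : C.t ∈ S.chart C.Zplus := S.chart_mono C.subset_Zplus C.ht

/-- Outside `Z⁺` and away from `P₀` the coordinate has order `0`. -/
theorem ord_t_eq_zero {P : Place K F} (hP : P ∉ C.Zplus) (hne : P ≠ C.P₀) : P.ord C.t = 0 := by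
  have hPZ : P ∉ Z := fun h => hP (C.subset_Zplus h)
  have h1 : 0 ≤ P.ord C.t :=
    ((mem_regularRing_iff_ord.1 C.ht.2) P hPZ).resolve_left C.t_ne_zero
  have h2 : ¬ 0 < P.ord C.t := fun h => hP (Or.inr ⟨hne, h⟩)
  omega

/-- **(T1) Division by the coordinate.** For `h ∈ B_{Z⁺}` the quotient `(h - h(P₀)) / t` lies
again in `B_{Z⁺}`. -/
theorem div_mem_chart (hF : RiemannPkg K F) {h : F} (hh : h ∈ S.chart C.Zplus) :
    (h - algebraMap K F (evalAt C.P₀ h)) * C.t⁻¹ ∈ S.chart C.Zplus := by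
  have hcA : evalAt C.P₀ h ∈ A := S.evalAt_mem hF hh C.r_P₀_notMem
  have hc : algebraMap K F (evalAt C.P₀ h) ∈ S.chart C.Zplus := S.algebraMap_mem_chart _ hcA
  have hy : h - algebraMap K F (evalAt C.P₀ h) ∈ S.chart C.Zplus := sub_mem hh hc
  refine ⟨S.O.mul_mem _ _ hy.1 C.t_inv_mem, ?_⟩
  intro P hP
  rw [Place.adicValuation_le_one_iff]
  by_cases hy0 : h - algebraMap K F (evalAt C.P₀ h) = 0
  · left
    rw [hy0, zero_mul]
  right
  rw [P.ord_mul hy0 (inv_ne_zero C.t_ne_zero), P.ord_inv]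
  by_cases hPP : P = C.P₀
  · subst hPP
    have hmem : h ∈ C.P₀.toValuationSubring :=
      mem_toValuationSubring_of_mem_regularRing hh.2 hP
    have hpos := (ord_sub_evalAt_pos C.P₀ (hF.deg_one C.P₀) hmem).resolve_left
      (fun h0 => hy0 (sub_eq_zero.2 h0))
    rw [C.hord]
    omega
  · rw [C.ord_t_eq_zero hP hPP]
    have := ((mem_regularRing_iff_ord.1 hy.2) P hP).resolve_left hy0
    omega

end DiscCoord

end Fermat.Agent.FF2.Disc
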