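import Mathlib
import Fermat.Agent.FF2.Disc.Division
import Fermat.Agent.FF2.Disc.Chain

/-!
# MOONSHOT S19, node (G1-T), part 2: Taylor expansions on a residue disc, congruence form

`C : DiscCoord S Z` a residue disc with integral coordinate `t` (centre `P₀`), `h ∈ B_{Z⁺}`.

* `DiscCoord.chain C h n` : the division chain `h₀ = h`, `hₙ₊₁ = (hₙ - hₙ(P₀)) / t`;
  `DiscCoord.coeff C h n = hₙ(P₀)` : the Taylor coefficients.
* `chain_mem_chart`, `coeff_mem` : `hₙ ∈ B_{Z⁺}`, `aₙ ∈ A`.
* `eq_sum_add` : `h = ∑_{i<n} aᵢ tⁱ + tⁿ hₙ` in `F`.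
* `evalAt_eq_sum_add` : **(T2)** for `P` in the disc,
  `h(P) = ∑_{i<n} aᵢ t(P)ⁱ + t(P)ⁿ hₙ(P)` with `hₙ(P) ∈ A`, `t(P) ∈ A` — the Taylor expansion in
  congruence form (no completion, no topology).
* `resF_chain_succ` : the reductions of the chain form the division chain of `res h` with respect to
  `res t` on the special fibre: `res hₙ₊₁ · res t = res hₙ - π aₙ`.
* `resF_chain`, `pi_coeff` : the reduction of the chain / of the coefficients is the Taylor chain /
  are the Taylor coefficients of `res h` at `r P₀` with respect to `res t`.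
* `pi_evalAt_t` : `t(P)` is a non-unit of `A` for `P` in the disc.
-/

set_option autoImplicit false

namespace Fermat.Agent.FF2.Disc

open AlgebraicCurve Fermat.Agent.Red Fermat.Agent.X0 WithZero

variable {K F k Ft : Type*} [Field K] [Field F] [Algebra K F] [Field k] [Field Ft]
  [Algebra k Ft] {A : ValuationSubring K} {π : A →+* k}

namespace DiscCoord

variable {S : RedSetup (F := F) (Ft := Ft) A π} {Z : Set (Place K F)} (C : DiscCoord S Z)

/-- The division chain `h₀ = h`, `hₙ₊₁ = (hₙ - hₙ(P₀)) / t` (= `taylorChain` at `P₀`, `t`). -/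
noncomputable def chain (h : F) : ℕ → F := taylorChain C.P₀ C.t h

/-- The Taylor coefficients `aₙ = hₙ(P₀)`. -/
noncomputable def coeff (h : F) (n : ℕ) : K := taylorCoeff C.P₀ C.t h n

@[simp] theorem chain_zero (h : F) : C.chain h 0 = h := rfl

theorem chain_succ (h : F) (n : ℕ) :
    C.chain h (n + 1) = (C.chain h n - algebraMap K F (C.coeff h n)) * C.t⁻¹ := rfl

theorem coeff_eq (h : F) (n : ℕ) : C.coeff h n = evalAt C.P₀ (C.chain h n) := rfl

theorem chain_mem_chart (hF : RiemannPkg K F) {h : F} (hh : h ∈ S.chart C.Zplus) (n : ℕ) :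
    C.chain h n ∈ S.chart C.Zplus := by
  induction n with
  | zero => exact hh
  | succ n ih =>
    rw [C.chain_succ, C.coeff_eq]
    exact C.div_mem_chart hF ih

theorem coeff_mem (hF : RiemannPkg K F) {h : F} (hh : h ∈ S.chart C.Zplus) (n : ℕ) :
    C.coeff h n ∈ A :=
  S.evalAt_mem hF (C.chain_mem_chart hF hh n) C.r_P₀_notMem

/-- One step of the chain: `hₙ = aₙ + t hₙ₊₁`. -/
theorem chain_eq (h : F) (n : ℕ) :
    C.chain h n = algebraMap K F (C.coeff h n) + C.t * C.chain h (n + 1) := by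
  rw [C.chain_succ, mul_comm (C.chain h n - _), ← mul_assoc, mul_inv_cancel₀ C.t_ne_zero, one_mul]
  ring

/-- `h = ∑_{i<n} aᵢ tⁱ + tⁿ hₙ`. -/
theorem eq_sum_add (h : F) (n : ℕ) :
    h = ∑ i ∈ Finset.range n, algebraMap K F (C.coeff h i) * C.t ^ i + C.t ^ n * C.chain h n := by
  induction n with
  | zero => simp
  | succ n ih =>
    have h1 := C.chain_eq h n
    rw [Finset.sum_range_succ]
    calc h = ∑ i ∈ Finset.range n, algebraMap K F (C.coeff h i) * C.t ^ i
          + C.t ^ n * C.chain h n := ih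
      _ = _ := by rw [h1]; ring

theorem mem_valuationSubring {P : Place K F} (hP : P ∈ C.disc) {h : F}
    (hh : h ∈ S.chart C.Zplus) : h ∈ P.toValuationSubring :=
  mem_toValuationSubring_of_mem_regularRing hh.2 (C.notMem_Zplus_of_mem_disc hP)

/-- Values of functions of `B_{Z⁺}` at points of the disc are integral. -/
theorem evalAt_mem_of_mem_disc (hF : RiemannPkg K F) {P : Place K F} (hP : P ∈ C.disc) {h : F}
    (hh : h ∈ S.chart C.Zplus) : evalAt P h ∈ A :=
  S.evalAt_mem hF hh (C.r_notMem_of_mem_disc hP)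

/-- One step of the chain, evaluated at a point of the disc. -/
theorem evalAt_chain (hF : RiemannPkg K F) {P : Place K F} (hP : P ∈ C.disc) {h : F}
    (hh : h ∈ S.chart C.Zplus) (n : ℕ) :
    evalAt P (C.chain h n) = C.coeff h n + evalAt P C.t * evalAt P (C.chain h (n + 1)) := by
  have hdeg := hF.deg_one P
  have h1 : C.t ∈ P.toValuationSubring := C.mem_valuationSubring hP C.t_mem_chart_Zplus
  have h2 : C.chain h (n + 1) ∈ P.toValuationSubring :=
    C.mem_valuationSubring hP (C.chain_mem_chart hF hh (n + 1))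
  conv_lhs => rw [C.chain_eq h n]
  rw [evalAt_add P hdeg (P.algebraMap_mem' _) (mul_mem h1 h2), evalAt_algebraMap,
    evalAt_mul P hdeg h1 h2]

/-- **(T2) Taylor expansion on the disc, congruence form.** -/
theorem evalAt_eq_sum_add (hF : RiemannPkg K F) {P : Place K F} (hP : P ∈ C.disc) {h : F}
    (hh : h ∈ S.chart C.Zplus) (n : ℕ) :
    evalAt P h = ∑ i ∈ Finset.range n, C.coeff h i * evalAt P C.t ^ i
      + evalAt P C.t ^ n * evalAt P (C.chain h n) := by
  induction n with
  | zero => simp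
  | succ n ih =>
    have h1 := C.evalAt_chain hF hP hh n
    rw [Finset.sum_range_succ]
    calc evalAt P h = ∑ i ∈ Finset.range n, C.coeff h i * evalAt P C.t ^ i
          + evalAt P C.t ^ n * evalAt P (C.chain h n) := ih
      _ = _ := by rw [h1]; ring

/-- (T2), existence form: `h(P) ≡ ∑_{i<n} aᵢ t(P)ⁱ` modulo `t(P)ⁿ A`. -/
theorem exists_evalAt_eq_sum_add (hF : RiemannPkg K F) {P : Place K F} (hP : P ∈ C.disc) {h : F}
    (hh : h ∈ S.chart C.Zplus) (n : ℕ) :
    ∃ c ∈ A, evalAt P h = ∑ i ∈ Finset.range n, C.coeff h i * evalAt P C.t ^ i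
      + evalAt P C.t ^ n * c :=
  ⟨evalAt P (C.chain h n), C.evalAt_mem_of_mem_disc hF hP (C.chain_mem_chart hF hh n),
    C.evalAt_eq_sum_add hF hP hh n⟩

/-- The reductions of the chain form the division chain of `res h` on the special fibre. -/
theorem resF_chain_succ (hF : RiemannPkg K F) {h : F} (hh : h ∈ S.chart C.Zplus) (n : ℕ) :
    S.resF (C.chain h (n + 1)) * S.resF C.t
      = S.resF (C.chain h n) - algebraMap k Ft (π ⟨C.coeff h n, C.coeff_mem hF hh n⟩) := by
  have hcA := C.coeff_mem hF hh n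
  have h1 : C.chain h (n + 1) ∈ S.O := (C.chain_mem_chart hF hh (n + 1)).1
  have h2 : C.t ∈ S.O := C.ht.1
  have h3 : algebraMap K F (C.coeff h n) ∈ S.O := S.algebraMap_mem hcA
  have h4 := C.chain_eq h n
  have h5 : S.resF (C.chain h n) = S.resF (algebraMap K F (C.coeff h n))
      + S.resF C.t * S.resF (C.chain h (n + 1)) := by
    conv_lhs => rw [h4]
    rw [S.resF_add h3 (S.O.mul_mem _ _ h2 h1), S.resF_mul h2 h1]
  rw [h5, S.resF_algebraMap hcA]
  ring

/-- **Reduction of the chain**: the reductions of the `hₙ` are the Taylor chain of `res h` at the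
place `r P₀` of the special fibre with respect to the parameter `res t`. -/
theorem resF_chain (hF : RiemannPkg K F) {h : F} (hh : h ∈ S.chart C.Zplus) (n : ℕ) :
    S.resF (C.chain h n) = taylorChain (S.r C.P₀) (S.resF C.t) (S.resF h) n := by
  induction n with
  | zero => rfl
  | succ n ih =>
    have hcA := C.coeff_mem hF hh n
    have hmem := C.chain_mem_chart hF hh n
    have h3 : algebraMap K F (C.coeff h n) ∈ S.O := S.algebraMap_mem hcA
    obtain ⟨hcA', he⟩ := S.evalAt_resF hF hmem C.r_P₀_notMem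
    rw [C.chain_succ, S.resF_mul (sub_mem hmem.1 h3) C.t_inv_mem, S.resF_sub hmem.1 h3,
      S.resF_algebraMap hcA, S.resF_inv C.hres, taylorChain_succ, ← ih]
    unfold taylorCoeff
    rw [← ih, he]
    rfl

/-- **Reduction of the Taylor coefficients.** -/
theorem pi_coeff (hF : RiemannPkg K F) {h : F} (hh : h ∈ S.chart C.Zplus) (n : ℕ) :
    π ⟨C.coeff h n, C.coeff_mem hF hh n⟩
      = taylorCoeff (S.r C.P₀) (S.resF C.t) (S.resF h) n := by
  obtain ⟨hcA', he⟩ := S.evalAt_resF hF (C.chain_mem_chart hF hh n) C.r_P₀_notMem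
  unfold taylorCoeff
  rw [← C.resF_chain hF hh n, he]
  rfl

/-- The value of the coordinate at a point of the disc is a non-unit of `A`. -/
theorem pi_evalAt_t (hF : RiemannPkg K F) {P : Place K F} (hP : P ∈ C.disc) :
    π ⟨evalAt P C.t, C.evalAt_mem_of_mem_disc hF hP C.t_mem_chart_Zplus⟩ = 0 := by
  obtain ⟨hcA, he⟩ := S.evalAt_resF hF C.t_mem_chart_Zplus (C.r_notMem_of_mem_disc hP)
  have h0 : IsValueAt (S.r P) (S.resF C.t) 0 := by
    rw [C.mem_disc.1 hP, isValueAt_zero_iff, adicValuation_lt_one_iff]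
    right
    rw [C.hordres]
    norm_num
  rw [evalAt_eq_of_isValueAt h0] at he
  exact he.symm

end DiscCoord

end Fermat.Agent.FF2.Disc
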