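import Mathlib
import Fermat.Agent.FF2.Disc.Taylor

/-!
# MOONSHOT S19, node (G1-T), part 3: the coordinate of a residue disc and counting zeros

`C : DiscCoord S Z` a residue disc with integral coordinate `t` (centre `P₀`).

* `resF_sub_const` : for a non-unit `c` of `A`, `res (t - c) = res t`.
* `evalAt_t_injOn` : **(T3a)** `P ↦ t(P)` is injective on the disc.
* `exists_mem_disc_evalAt_t_eq` : **(T3b)** every non-unit `c` of `A` is `t(P)` for some `P` of the
  disc.
* `discEquiv` : **(T3)** the bijection `disc ≃ {c : A // π c = 0}`, `P ↦ t(P)`.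
* `sum_ord_disc_eq` : **(T4)** for `y` with `res y ≠ 0` and divisor `D`:
  `∑_{P ∈ supp D ∩ disc} ord_P y = ord_{r P₀} (res y)` (conservation at `r P₀`).
* `exists_zero_of_ord_resF_pos`, `evalAt_eq_zero_iff_ord_pos` : zeros in the disc.
-/

set_option autoImplicit false

namespace Fermat.Agent.FF2.Disc

open AlgebraicCurve Fermat.Agent.Red Fermat.Agent.X0 WithZero

variable {K F k Ft : Type*} [Field K] [Field F] [Algebra K F] [Field k] [Field Ft]
  [Algebra k Ft] {A : ValuationSubring K} {π : A →+* k}

namespace DiscCoord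

variable {S : RedSetup (F := F) (Ft := Ft) A π} {Z : Set (Place K F)} (C : DiscCoord S Z)

/-- For a non-unit `c` of `A` the function `t - c` lies in `B_Z` and has the same reduction
as `t`. -/
theorem sub_const_mem_chart {c : K} (hcA : c ∈ A) : C.t - algebraMap K F c ∈ S.chart Z :=
  sub_mem C.ht (S.algebraMap_mem_chart Z hcA)

theorem resF_sub_const {c : K} (hcA : c ∈ A) (hc : π ⟨c, hcA⟩ = 0) :
    S.resF (C.t - algebraMap K F c) = S.resF C.t := by
  rw [S.resF_sub C.ht.1 (S.algebraMap_mem hcA), S.resF_algebraMap hcA, hc, map_zero, sub_zero]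

/-- A point of the disc where `t` takes the value `c` is a zero of `t - c`. -/
theorem ord_sub_const_pos (hF : RiemannPkg K F) {P : Place K F} (hP : P ∈ C.disc) {c : K}
    (hne : C.t - algebraMap K F c ≠ 0) (hval : evalAt P C.t = c) :
    0 < P.ord (C.t - algebraMap K F c) := by
  have h1 := ord_sub_evalAt_pos P (hF.deg_one P)
    (C.mem_valuationSubring hP C.t_mem_chart_Zplus)
  rw [hval] at h1
  exact h1.resolve_left fun h0 => hne (sub_eq_zero.2 h0)

/-- **(T3a)** The coordinate is injective on the disc. -/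
theorem evalAt_t_injOn (hF : RiemannPkg K F) : Set.InjOn (fun P => evalAt P C.t) C.disc := by
  classical
  intro P hP P' hP' heq
  by_contra hne
  have hcA : evalAt P C.t ∈ A := C.evalAt_mem_of_mem_disc hF hP C.t_mem_chart_Zplus
  have hc := C.pi_evalAt_t hF hP
  have hres := C.resF_sub_const hcA hc
  have hres0 : S.resF (C.t - algebraMap K F (evalAt P C.t)) ≠ 0 := by
    rw [hres]
    exact C.hres
  have hy0 := S.ne_zero_of_resF_ne_zero hres0
  have h1 := C.ord_sub_const_pos hF hP hy0 rfl
  have h2 := C.ord_sub_const_pos hF hP' hy0 (show evalAt P' C.t = evalAt P C.t from heq.symm)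
  have hsum := S.sum_ord_le_ord_resF hF (C.sub_const_mem_chart hcA) hres0 C.hP₀ {P, P'} (by
    intro P'' hP''
    rcases Finset.mem_insert.1 hP'' with rfl | hP''
    · exact hP
    · rw [Finset.mem_singleton.1 hP'']
      exact hP')
  rw [Finset.sum_pair hne, hres, C.hordres] at hsum
  omega

/-- **(T3b)** Every non-unit of `A` is a value of the coordinate on the disc. -/
theorem exists_mem_disc_evalAt_t_eq (hF : RiemannPkg K F) {c : K} (hcA : c ∈ A)
    (hc : π ⟨c, hcA⟩ = 0) : ∃ P ∈ C.disc, evalAt P C.t = c := by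
  classical
  have hres := C.resF_sub_const hcA hc
  have hres0 : S.resF (C.t - algebraMap K F c) ≠ 0 := by
    rw [hres]
    exact C.hres
  have hy0 := S.ne_zero_of_resF_ne_zero hres0
  obtain ⟨D, hD, -⟩ := hF.principal.exists_divisor _ hy0
  have hcons := S.mapDomain_div_apply hres0 D hD (S.r C.P₀)
  rw [hres, C.hordres, mapDomain_apply_eq_sum] at hcons
  have hex : ∃ a ∈ D.support, (0 : ℤ) < (if S.r a = S.r C.P₀ then D a else 0) := by
    by_contra hcon
    push Not at hcon
    have := Finset.sum_nonpos hcon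
    omega
  obtain ⟨a, -, ha⟩ := hex
  split_ifs at ha with har
  · refine ⟨a, har, ?_⟩
    rw [hD a] at ha
    apply evalAt_eq_of_isValueAt
    rw [isValueAt_iff]
    exact Or.inr ha
  · exact absurd ha (lt_irrefl _)

/-- **(T3)** The coordinate identifies the residue disc with the non-units of `A`. -/
noncomputable def discEquiv (hF : RiemannPkg K F) : C.disc ≃ {c : A // π c = 0} :=
  Equiv.ofBijective
    (fun P => ⟨⟨evalAt P.1 C.t, C.evalAt_mem_of_mem_disc hF P.2 C.t_mem_chart_Zplus⟩,
      C.pi_evalAt_t hF P.2⟩)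
    ⟨fun P P' h => Subtype.ext (C.evalAt_t_injOn hF P.2 P'.2
        (congrArg (fun x : {c : A // π c = 0} => ((x : A) : K)) h)),
      fun c => by
        obtain ⟨P, hP, hval⟩ := C.exists_mem_disc_evalAt_t_eq hF c.1.2 c.2
        exact ⟨⟨P, hP⟩, Subtype.ext (Subtype.ext hval)⟩⟩

@[simp]
theorem coe_discEquiv_apply (hF : RiemannPkg K F) (P : C.disc) :
    (((C.discEquiv hF P : {c : A // π c = 0}) : A) : K) = evalAt P.1 C.t := rfl

/-- **(T4) Counting zeros in the disc.** For `y` with nonzero reduction and divisor `D`, the zeros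
(and poles) of `y` in the disc add up to the order of `res y` at `r P₀`. -/
theorem sum_ord_disc_eq [DecidablePred (· ∈ C.disc)] {y : F} (hres : S.resF y ≠ 0)
    (D : Divisor K F) (hD : ∀ P, D P = P.ord y) :
    ∑ P ∈ D.support.filter (· ∈ C.disc), P.ord y = (S.r C.P₀).ord (S.resF y) := by
  classical
  rw [← S.mapDomain_div_apply hres D hD (S.r C.P₀), mapDomain_apply_eq_sum, Finset.sum_filter]
  refine Finset.sum_congr rfl fun P _ => ?_
  by_cases hP : P ∈ C.disc
  · rw [if_pos hP, if_pos (C.mem_disc.1 hP), hD P]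
  · rw [if_neg hP, if_neg fun h => hP (C.mem_disc.2 h)]

/-- If the reduction of `y ∈ B_{Z⁺}` vanishes at `r P₀`, then `y` has a zero in the disc. -/
theorem exists_zero_of_ord_resF_pos (hF : RiemannPkg K F) {y : F} (hres : S.resF y ≠ 0)
    (hpos : 0 < (S.r C.P₀).ord (S.resF y)) : ∃ P ∈ C.disc, 0 < P.ord y := by
  classical
  have hy0 := S.ne_zero_of_resF_ne_zero hres
  obtain ⟨D, hD, -⟩ := hF.principal.exists_divisor _ hy0
  have hsum := C.sum_ord_disc_eq hres D hD
  by_contra hcon
  push Not at hcon
  have : ∑ P ∈ D.support.filter (· ∈ C.disc), P.ord y ≤ 0 :=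
    Finset.sum_nonpos fun P hP => hcon P (Finset.mem_filter.1 hP).2
  omega

/-- A function of `B_{Z⁺}` vanishes at a point `P` of the disc iff it has positive order there
(or is zero). -/
theorem evalAt_eq_zero_iff (hF : RiemannPkg K F) {P : Place K F} (hP : P ∈ C.disc) {y : F}
    (hy : y ∈ S.chart C.Zplus) : evalAt P y = 0 ↔ y = 0 ∨ 0 < P.ord y := by
  have hmem := C.mem_valuationSubring hP hy
  have hval := isValueAt_evalAt P (hF.deg_one P) hmem
  constructor
  · intro h0
    rw [h0, isValueAt_zero_iff, adicValuation_lt_one_iff] at hval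
    exact hval
  · intro h
    apply evalAt_eq_of_isValueAt
    rw [isValueAt_zero_iff, adicValuation_lt_one_iff]
    exact h

end DiscCoord

end Fermat.Agent.FF2.Disc
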