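import Mathlib
import Fermat.Agent.FF2.Disc.Chain

/-!
# MOONSHOT S19, node (G1-T), part 6: the Taylor series at a place of degree one is a ring hom

`P` a place of degree one of `F/K`, `t` with `ord_P t = 1`.

* `taylorSeries P t h : K⟦X⟧` : the series `∑ aₙ Xⁿ` of Taylor coefficients.
* `taylorCoeff_eq_of_eq_sum_add` : **uniqueness**: `h = ∑_{i<n} cᵢ tⁱ + tⁿ r` with `r` regular at
  `P` forces `aᵢ = cᵢ` for `i < n`.
* `taylorSeries_add`, `taylorSeries_smul`, `taylorSeries_algebraMap`, `taylorSeries_param_mul`
  (`T(t u) = X · T(u)`), `taylorSeries_param` (`T(t) = X`), `taylorSeries_mul` (**Cauchy product**),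
  `taylorSeries_pow`.
* `taylorSeriesHom hdeg ht : P.toValuationSubring →+* K⟦X⟧`, injective
  (`taylorSeries_eq_zero_iff`).
-/

set_option autoImplicit false

namespace Fermat.Agent.FF2.Disc

open AlgebraicCurve Fermat.Agent.Red Fermat.Agent.X0 WithZero

variable {K F : Type*} [Field K] [Field F] [Algebra K F]

/-- The Taylor series `∑ aₙ Xⁿ`. -/
noncomputable def taylorSeries (P : Place K F) (t h : F) : PowerSeries K :=
  PowerSeries.mk (taylorCoeff P t h)

@[simp]
theorem coeff_taylorSeries (P : Place K F) (t h : F) (n : ℕ) :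
    PowerSeries.coeff n (taylorSeries P t h) = taylorCoeff P t h n :=
  PowerSeries.coeff_mk _ _

theorem taylorCoeff_zero_eq (P : Place K F) (t h : F) : taylorCoeff P t h 0 = evalAt P h := rfl

theorem taylorCoeff_succ_eq (P : Place K F) (t h : F) (n : ℕ) :
    taylorCoeff P t h (n + 1) = taylorCoeff P t (taylorChain P t h 1) n := by
  unfold taylorCoeff
  rw [taylorChain_succ']

/-- `T(h) = h(P) + X · T(h₁)`. -/
theorem taylorSeries_eq_C_add_X_mul (P : Place K F) (t h : F) :
    taylorSeries P t h
      = PowerSeries.C (evalAt P h) + PowerSeries.X * taylorSeries P t (taylorChain P t h 1) := by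
  ext n
  cases n with
  | zero => simp [taylorCoeff_zero_eq]
  | succ n =>
    rw [coeff_taylorSeries, map_add, PowerSeries.coeff_succ_X_mul, coeff_taylorSeries,
      taylorCoeff_succ_eq, PowerSeries.coeff_C]
    simp

section Regular

variable {P : Place K F} (hdeg : P.deg = 1) {t : F} (ht : P.ord t = 1)

include ht in
theorem param_mem : t ∈ P.toValuationSubring :=
  Place.mem_of_ord_nonneg P (by rw [ht]; norm_num)

include ht in
theorem evalAt_param : evalAt P t = 0 := by
  apply evalAt_eq_of_isValueAt
  rw [isValueAt_zero_iff, adicValuation_lt_one_iff]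
  exact Or.inr (by rw [ht]; norm_num)

include hdeg ht in
theorem evalAt_param_mul {u : F} (hu : u ∈ P.toValuationSubring) : evalAt P (t * u) = 0 := by
  rw [evalAt_mul P hdeg (param_mem ht) hu, evalAt_param ht, zero_mul]

include hdeg ht in
theorem taylorChain_param_mul_one {u : F} (hu : u ∈ P.toValuationSubring) :
    taylorChain P t (t * u) 1 = u := by
  have ht0 := ne_zero_of_ord_eq_one ht
  rw [taylorChain_succ, taylorChain_zero, taylorCoeff_zero_eq, evalAt_param_mul hdeg ht hu,
    map_zero, sub_zero, mul_comm t u, mul_assoc, mul_inv_cancel₀ ht0, mul_one]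

include hdeg ht in
/-- `T(t u) = X · T(u)`. -/
theorem taylorSeries_param_mul {u : F} (hu : u ∈ P.toValuationSubring) :
    taylorSeries P t (t * u) = PowerSeries.X * taylorSeries P t u := by
  rw [taylorSeries_eq_C_add_X_mul, evalAt_param_mul hdeg ht hu,
    taylorChain_param_mul_one hdeg ht hu, map_zero, zero_add]

include hdeg ht in
theorem taylorSeries_add {h h' : F} (hh : h ∈ P.toValuationSubring)
    (hh' : h' ∈ P.toValuationSubring) :
    taylorSeries P t (h + h') = taylorSeries P t h + taylorSeries P t h' := by
  ext n
  rw [map_add, coeff_taylorSeries, coeff_taylorSeries, coeff_taylorSeries,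
    taylorCoeff_add hdeg ht hh hh']

include hdeg ht in
theorem taylorSeries_smul (a : K) {h : F} (hh : h ∈ P.toValuationSubring) :
    taylorSeries P t (a • h) = PowerSeries.C a * taylorSeries P t h := by
  ext n
  rw [PowerSeries.coeff_C_mul, coeff_taylorSeries, coeff_taylorSeries,
    taylorCoeff_smul hdeg ht a hh]

theorem taylorChain_algebraMap_one (P : Place K F) (t : F) (c : K) :
    taylorChain P t (algebraMap K F c) 1 = 0 := by
  rw [taylorChain_succ, taylorChain_zero, taylorCoeff_zero_eq, evalAt_algebraMap, sub_self,
    zero_mul]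

theorem taylorChain_zero_fun' (P : Place K F) (t : F) (n : ℕ) : taylorChain P t 0 n = 0 := by
  induction n with
  | zero => rfl
  | succ n ih =>
    rw [taylorChain_succ, ih]
    unfold taylorCoeff
    rw [ih, ← map_zero (algebraMap K F), evalAt_algebraMap, map_zero, sub_zero, zero_mul]

theorem taylorSeries_zero (P : Place K F) (t : F) : taylorSeries P t 0 = 0 := by
  ext n
  rw [coeff_taylorSeries, map_zero]
  unfold taylorCoeff
  rw [taylorChain_zero_fun', ← map_zero (algebraMap K F), evalAt_algebraMap]

/-- `T(c) = c` for constants. -/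
theorem taylorSeries_algebraMap (P : Place K F) (t : F) (c : K) :
    taylorSeries P t (algebraMap K F c) = PowerSeries.C c := by
  rw [taylorSeries_eq_C_add_X_mul, taylorChain_algebraMap_one, taylorSeries_zero, mul_zero,
    add_zero, evalAt_algebraMap]

theorem taylorSeries_one (P : Place K F) (t : F) : taylorSeries P t 1 = 1 := by
  rw [← map_one (algebraMap K F), taylorSeries_algebraMap, map_one]

include hdeg ht in
/-- `T(t) = X`. -/
theorem taylorSeries_param : taylorSeries P t t = PowerSeries.X := by
  have h1 := taylorSeries_param_mul hdeg ht (u := 1) (one_mem _)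
  rwa [mul_one, taylorSeries_one, mul_one] at h1

include ht in
/-- `h = h(P) + t h₁`. -/
theorem eq_add_param_mul (h : F) :
    h = evalAt P h • (1 : F) + t * taylorChain P t h 1 := by
  have ht0 := ne_zero_of_ord_eq_one ht
  have := taylorChain_eq P t h ht0 0
  rw [taylorChain_zero, taylorCoeff_zero_eq, zero_add] at this
  rw [Algebra.smul_def, mul_one]
  exact this

include hdeg ht in
/-- **Cauchy product**: the Taylor series is multiplicative. -/
theorem taylorSeries_mul {h h' : F} (hh : h ∈ P.toValuationSubring)
    (hh' : h' ∈ P.toValuationSubring) :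
    taylorSeries P t (h * h') = taylorSeries P t h * taylorSeries P t h' := by
  ext n
  induction n generalizing h with
  | zero =>
    rw [coeff_taylorSeries, taylorCoeff_zero_eq, evalAt_mul P hdeg hh hh',
      PowerSeries.coeff_zero_eq_constantCoeff, map_mul, ← PowerSeries.coeff_zero_eq_constantCoeff,
      coeff_taylorSeries, coeff_taylorSeries, taylorCoeff_zero_eq, taylorCoeff_zero_eq]
  | succ n ih =>
    have h1mem : taylorChain P t h 1 ∈ P.toValuationSubring := taylorChain_mem hdeg ht hh 1
    have hdecomp : h * h' = evalAt P h • h' + t * (taylorChain P t h 1 * h') := by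
      conv_lhs => rw [eq_add_param_mul ht h]
      rw [add_mul, smul_mul_assoc, one_mul, mul_assoc]
    have hmulmem : taylorChain P t h 1 * h' ∈ P.toValuationSubring := mul_mem h1mem hh'
    have hsmulmem : evalAt P h • h' ∈ P.toValuationSubring := by
      rw [Algebra.smul_def]
      exact mul_mem (P.algebraMap_mem' _) hh'
    have hT : taylorSeries P t h
        = PowerSeries.C (evalAt P h) + PowerSeries.X * taylorSeries P t (taylorChain P t h 1) :=
      taylorSeries_eq_C_add_X_mul P t h
    rw [hdecomp, taylorSeries_add hdeg ht hsmulmem (mul_mem (param_mem ht) hmulmem),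
      taylorSeries_smul hdeg ht _ hh', taylorSeries_param_mul hdeg ht hmulmem, hT, add_mul,
      mul_assoc, map_add, map_add, PowerSeries.coeff_succ_X_mul, PowerSeries.coeff_succ_X_mul,
      ih h1mem]

include hdeg ht in
theorem taylorSeries_pow {h : F} (hh : h ∈ P.toValuationSubring) (n : ℕ) :
    taylorSeries P t (h ^ n) = taylorSeries P t h ^ n := by
  induction n with
  | zero => rw [pow_zero, pow_zero, taylorSeries_one]
  | succ n ih => rw [pow_succ, pow_succ, taylorSeries_mul hdeg ht (pow_mem hh n) hh, ih]

include hdeg ht in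
theorem taylorSeries_neg {h : F} (hh : h ∈ P.toValuationSubring) :
    taylorSeries P t (-h) = -taylorSeries P t h := by
  have h1 := taylorSeries_smul hdeg ht (-1 : K) hh
  rwa [neg_smul, one_smul, map_neg, map_one, neg_mul, one_mul] at h1

include hdeg ht in
theorem taylorSeries_sub {h h' : F} (hh : h ∈ P.toValuationSubring)
    (hh' : h' ∈ P.toValuationSubring) :
    taylorSeries P t (h - h') = taylorSeries P t h - taylorSeries P t h' := by
  rw [sub_eq_add_neg, taylorSeries_add hdeg ht hh (neg_mem hh'), taylorSeries_neg hdeg ht hh',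
    sub_eq_add_neg]

/-- The Taylor series as a ring hom on the valuation ring of `P`. -/
noncomputable def taylorSeriesHom : P.toValuationSubring →+* PowerSeries K where
  toFun h := taylorSeries P t (h : F)
  map_one' := taylorSeries_one P t
  map_mul' h h' := taylorSeries_mul hdeg ht h.2 h'.2
  map_zero' := taylorSeries_zero P t
  map_add' h h' := taylorSeries_add hdeg ht h.2 h'.2

@[simp]
theorem taylorSeriesHom_apply (h : P.toValuationSubring) :
    taylorSeriesHom hdeg ht h = taylorSeries P t (h : F) := rfl

include hdeg ht in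
/-- The Taylor series of a regular function vanishes only for the zero function. -/
theorem taylorSeries_eq_zero_iff {h : F} (hh : h ∈ P.toValuationSubring) :
    taylorSeries P t h = 0 ↔ h = 0 := by
  constructor
  · intro h0
    by_contra hne
    have hcoeff : ∀ i, taylorCoeff P t h i = 0 := fun i => by
      rw [← coeff_taylorSeries, h0, map_zero]
    have hord := Place.ord_nonneg_of_mem P hh
    have := (le_ord_iff_taylorCoeff hdeg ht hh hne ((P.ord h).toNat + 1)).2
      fun i _ => hcoeff i
    push_cast at this
    omega
  · rintro rfl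
    exact taylorSeries_zero P t

include hdeg ht in
/-- **Uniqueness of Taylor coefficients**: if `h = ∑_{i<n} cᵢ tⁱ + tⁿ r` with `r` regular at `P`,
then `cᵢ` is the `i`-th Taylor coefficient of `h`. -/
theorem taylorCoeff_eq_of_eq_sum_add {h r : F} (hr : r ∈ P.toValuationSubring) (n : ℕ)
    (c : ℕ → K)
    (hEq : h = ∑ i ∈ Finset.range n, algebraMap K F (c i) * t ^ i + t ^ n * r) {i : ℕ}
    (hi : i < n) : taylorCoeff P t h i = c i := by
  have htm := param_mem ht
  have hsum : ∀ m : ℕ, taylorSeries P t (∑ i ∈ Finset.range m, algebraMap K F (c i) * t ^ i)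
      = ∑ i ∈ Finset.range m, PowerSeries.C (c i) * PowerSeries.X ^ i := by
    intro m
    induction m with
    | zero => simp [taylorSeries_zero]
    | succ m ihm =>
      rw [Finset.sum_range_succ, Finset.sum_range_succ, taylorSeries_add hdeg ht
        (sum_mem fun j _ => mul_mem (P.algebraMap_mem' _) (pow_mem htm j))
        (mul_mem (P.algebraMap_mem' _) (pow_mem htm m)), ihm,
        taylorSeries_mul hdeg ht (P.algebraMap_mem' _) (pow_mem htm m),
        taylorSeries_algebraMap, taylorSeries_pow hdeg ht htm, taylorSeries_param hdeg ht]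
  rw [← coeff_taylorSeries, hEq, taylorSeries_add hdeg ht
    (sum_mem fun j _ => mul_mem (P.algebraMap_mem' _) (pow_mem htm j))
    (mul_mem (pow_mem htm n) hr), hsum, taylorSeries_mul hdeg ht (pow_mem htm n) hr,
    taylorSeries_pow hdeg ht htm, taylorSeries_param hdeg ht, map_add,
    PowerSeries.coeff_X_pow_mul', if_neg (by omega), add_zero, map_sum]
  rw [Finset.sum_eq_single i]
  · rw [PowerSeries.coeff_C_mul, PowerSeries.coeff_X_pow, if_pos rfl, mul_one]
  · intro j _ hji
    rw [PowerSeries.coeff_C_mul, PowerSeries.coeff_X_pow, if_neg (Ne.symm hji), mul_zero]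
  · intro hni
    exact absurd (Finset.mem_range.2 hi) hni

end Regular

end Fermat.Agent.FF2.Disc
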