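import Mathlib
import Fermat.Agent.FF2.Disc.Coordinate
import Fermat.Agent.FF2.Disc.Series

/-!
# MOONSHOT S19, node (G1-T), part 7: the ring of a residue disc, re-centring

`C : DiscCoord S Z` a residue disc with integral coordinate `t` (centre `P₀`).

* `C.ring = S.chart C.discᶜ` : the **ring of the disc**: Gauss-integral functions without poles in
  the residue disc.  It contains every `S.chart Z'` with `r P₀ ∉ r(Z')` (`chart_le_ring_of_notMem`),
  in particular `S.chart Z` and `S.chart C.Zplus`.
* `C.full : DiscCoord S C.discᶜ` : the same coordinate, seen over the complement of the disc;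
  `C.full.Zplus = C.discᶜ`, so all theorems of `Taylor/Coordinate/Roots` apply to `C.full` with
  hypothesis `h ∈ C.ring`.
* `C.recenter hF hP : DiscCoord S C.discᶜ` for `P ∈ C.disc` : **re-centring**: centre `P`,
  coordinate `t - t(P)`; `ord_P (t - t(P)) = 1`, no other zero in the disc; same disc, same ring.
* `C.series h : K⟦X⟧` and its ring-hom properties on `C.ring`; `C.series_quot`: for `h ∈ C.ring`,
  `P ∈ C.disc`, `x = t(P)`: `T(h) = C (h(P)) + (X - C x) · T((h - h(P)) / (t - x))`.
-/

set_option autoImplicit false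

namespace Fermat.Agent.FF2.Disc

open AlgebraicCurve Fermat.Agent.Red Fermat.Agent.X0 WithZero

variable {K F k Ft : Type*} [Field K] [Field F] [Algebra K F] [Field k] [Field Ft]
  [Algebra k Ft] {A : ValuationSubring K} {π : A →+* k}

namespace DiscCoord

variable {S : RedSetup (F := F) (Ft := Ft) A π} {Z : Set (Place K F)} (C : DiscCoord S Z)

theorem subset_compl_disc : Z ⊆ C.discᶜ := fun P hP hPd => C.hP₀ ⟨P, hP, hPd⟩

theorem Zplus_subset_compl_disc : C.Zplus ⊆ C.discᶜ :=
  fun _ hP hPd => C.notMem_Zplus_of_mem_disc hPd hP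

theorem r_notMem_image_compl_disc {P : Place K F} (hP : P ∈ C.disc) :
    S.r P ∉ S.r '' C.discᶜ := by
  rintro ⟨P', hP', hr⟩
  exact hP' (hr.trans hP)

/-- The ring of the disc: Gauss-integral functions without poles in the residue disc. -/
def ring : Subring F := S.chart C.discᶜ

theorem mem_ring_iff {h : F} :
    h ∈ C.ring ↔ h ∈ S.O ∧ ∀ P ∈ C.disc, P.adicValuation h ≤ 1 := by
  unfold ring
  rw [S.mem_chart]
  refine and_congr Iff.rfl ⟨fun hh P hP => hh P (fun hc => hc hP), fun hh P hP => hh P ?_⟩
  by_contra hc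
  exact hP hc

theorem chart_le_ring : S.chart Z ≤ C.ring := S.chart_mono C.subset_compl_disc

theorem chart_Zplus_le_ring : S.chart C.Zplus ≤ C.ring := S.chart_mono C.Zplus_subset_compl_disc

/-- Any chart ring whose bad set does not meet the disc is contained in the ring of the disc. -/
theorem chart_le_ring_of_notMem {Z' : Set (Place K F)} (hZ' : S.r C.P₀ ∉ S.r '' Z') :
    S.chart Z' ≤ C.ring :=
  S.chart_mono fun P hP hPd => hZ' ⟨P, hP, hPd⟩

/-- The same coordinate over the complement of the disc. -/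
def full : DiscCoord S C.discᶜ where
  P₀ := C.P₀
  t := C.t
  hP₀ := C.r_notMem_image_compl_disc C.P₀_mem_disc
  ht := C.chart_le_ring C.ht
  hres := C.hres
  hord := C.hord
  hordres := C.hordres
  hother := C.hother

@[simp] theorem full_P₀ : C.full.P₀ = C.P₀ := rfl
@[simp] theorem full_t : C.full.t = C.t := rfl
theorem full_disc : C.full.disc = C.disc := rfl

theorem full_Zplus : C.full.Zplus = C.discᶜ := by
  apply Set.Subset.antisymm
  · exact C.full.Zplus_subset_compl_disc
  · exact C.full.subset_Zplus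

theorem mem_chart_full_Zplus {h : F} : h ∈ S.chart C.full.Zplus ↔ h ∈ C.ring := by
  rw [full_Zplus]
  rfl

theorem t_mem_ring : C.t ∈ C.ring := C.chart_le_ring C.ht

theorem algebraMap_mem_ring {a : K} (ha : a ∈ A) : algebraMap K F a ∈ C.ring :=
  S.algebraMap_mem_chart _ ha

/-! ### Statements on the ring of the disc (via `C.full`) -/

theorem ring_mem_valuationSubring {P : Place K F} (hP : P ∈ C.disc) {h : F} (hh : h ∈ C.ring) :
    h ∈ P.toValuationSubring :=
  C.full.mem_valuationSubring hP (C.mem_chart_full_Zplus.2 hh)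

theorem ring_evalAt_mem (hF : RiemannPkg K F) {P : Place K F} (hP : P ∈ C.disc) {h : F}
    (hh : h ∈ C.ring) : evalAt P h ∈ A :=
  C.full.evalAt_mem_of_mem_disc hF hP (C.mem_chart_full_Zplus.2 hh)

theorem ring_chain_mem (hF : RiemannPkg K F) {h : F} (hh : h ∈ C.ring) (n : ℕ) :
    C.chain h n ∈ C.ring :=
  C.mem_chart_full_Zplus.1 (C.full.chain_mem_chart hF (C.mem_chart_full_Zplus.2 hh) n)

theorem ring_coeff_mem (hF : RiemannPkg K F) {h : F} (hh : h ∈ C.ring) (n : ℕ) :
    C.coeff h n ∈ A :=
  C.full.coeff_mem hF (C.mem_chart_full_Zplus.2 hh) n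

/-- (T2) on the ring of the disc. -/
theorem ring_evalAt_eq_sum_add (hF : RiemannPkg K F) {P : Place K F} (hP : P ∈ C.disc) {h : F}
    (hh : h ∈ C.ring) (n : ℕ) :
    evalAt P h = ∑ i ∈ Finset.range n, C.coeff h i * evalAt P C.t ^ i
      + evalAt P C.t ^ n * evalAt P (C.chain h n) :=
  C.full.evalAt_eq_sum_add hF hP (C.mem_chart_full_Zplus.2 hh) n

theorem ring_pi_coeff (hF : RiemannPkg K F) {h : F} (hh : h ∈ C.ring) (n : ℕ) :
    π ⟨C.coeff h n, C.ring_coeff_mem hF hh n⟩
      = taylorCoeff (S.r C.P₀) (S.resF C.t) (S.resF h) n :=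
  C.full.pi_coeff hF (C.mem_chart_full_Zplus.2 hh) n

theorem ring_evalAt_eq_zero_iff (hF : RiemannPkg K F) {P : Place K F} (hP : P ∈ C.disc) {y : F}
    (hy : y ∈ C.ring) : evalAt P y = 0 ↔ y = 0 ∨ 0 < P.ord y :=
  C.full.evalAt_eq_zero_iff hF hP (C.mem_chart_full_Zplus.2 hy)

/-! ### Re-centring -/

theorem evalAt_t_mem (hF : RiemannPkg K F) {P : Place K F} (hP : P ∈ C.disc) :
    evalAt P C.t ∈ A :=
  C.evalAt_mem_of_mem_disc hF hP C.t_mem_chart_Zplus

/-- `t - t(P)` has a simple zero at `P`. -/
theorem ord_sub_evalAt_eq_one (hF : RiemannPkg K F) {P : Place K F} (hP : P ∈ C.disc) :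
    P.ord (C.t - algebraMap K F (evalAt P C.t)) = 1 := by
  classical
  have hcA := C.evalAt_t_mem hF hP
  have hc := C.pi_evalAt_t hF hP
  have hres := C.resF_sub_const hcA hc
  have hres0 : S.resF (C.t - algebraMap K F (evalAt P C.t)) ≠ 0 := by
    rw [hres]
    exact C.hres
  have hy0 := S.ne_zero_of_resF_ne_zero hres0
  have h1 := C.ord_sub_const_pos hF hP hy0 rfl
  have hsum := S.sum_ord_le_ord_resF hF (C.sub_const_mem_chart hcA) hres0 C.hP₀ {P} (by
    intro P'' hP''
    rw [Finset.mem_singleton.1 hP'']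
    exact hP)
  rw [Finset.sum_singleton, hres, C.hordres] at hsum
  omega

/-- `t - t(P)` has no other zero in the disc. -/
theorem ord_sub_evalAt_eq_zero (hF : RiemannPkg K F) {P : Place K F} (hP : P ∈ C.disc)
    {P' : Place K F} (hP' : P' ∈ C.disc) (hne : P' ≠ P) :
    P'.ord (C.t - algebraMap K F (evalAt P C.t)) = 0 := by
  classical
  have hcA := C.evalAt_t_mem hF hP
  have hc := C.pi_evalAt_t hF hP
  have hres := C.resF_sub_const hcA hc
  have hres0 : S.resF (C.t - algebraMap K F (evalAt P C.t)) ≠ 0 := by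
    rw [hres]
    exact C.hres
  have h1 := C.ord_sub_evalAt_eq_one hF hP
  have h0 : 0 ≤ P'.ord (C.t - algebraMap K F (evalAt P C.t)) :=
    S.ord_nonneg_of_mem_chart (C.sub_const_mem_chart hcA) (by
      rw [C.mem_disc.1 hP']
      exact C.hP₀)
  have hsum := S.sum_ord_le_ord_resF hF (C.sub_const_mem_chart hcA) hres0 C.hP₀ {P', P} (by
    intro P'' hP''
    rcases Finset.mem_insert.1 hP'' with rfl | hP''
    · exact hP'
    · rw [Finset.mem_singleton.1 hP'']
      exact hP)
  rw [Finset.sum_pair hne, hres, C.hordres, h1] at hsum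
  omega

/-- **Re-centring**: the disc coordinate centred at a point `P` of the disc, with coordinate
`t - t(P)`. -/
noncomputable def recenter (hF : RiemannPkg K F) {P : Place K F} (hP : P ∈ C.disc) :
    DiscCoord S C.discᶜ where
  P₀ := P
  t := C.t - algebraMap K F (evalAt P C.t)
  hP₀ := C.r_notMem_image_compl_disc hP
  ht := sub_mem C.t_mem_ring (C.algebraMap_mem_ring (C.evalAt_t_mem hF hP))
  hres := by
    rw [C.resF_sub_const (C.evalAt_t_mem hF hP) (C.pi_evalAt_t hF hP)]
    exact C.hres
  hord := C.ord_sub_evalAt_eq_one hF hP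
  hordres := by
    rw [C.resF_sub_const (C.evalAt_t_mem hF hP) (C.pi_evalAt_t hF hP), C.mem_disc.1 hP]
    exact C.hordres
  hother := fun P' hr hne =>
    C.ord_sub_evalAt_eq_zero hF hP (C.mem_disc.2 (hr.trans (C.mem_disc.1 hP))) hne

@[simp] theorem recenter_P₀ (hF : RiemannPkg K F) {P : Place K F} (hP : P ∈ C.disc) :
    (C.recenter hF hP).P₀ = P := rfl

@[simp] theorem recenter_t (hF : RiemannPkg K F) {P : Place K F} (hP : P ∈ C.disc) :
    (C.recenter hF hP).t = C.t - algebraMap K F (evalAt P C.t) := rfl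

theorem recenter_disc (hF : RiemannPkg K F) {P : Place K F} (hP : P ∈ C.disc) :
    (C.recenter hF hP).disc = C.disc := by
  ext P'
  rw [mem_disc, mem_disc, recenter_P₀, C.mem_disc.1 hP]

theorem recenter_Zplus (hF : RiemannPkg K F) {P : Place K F} (hP : P ∈ C.disc) :
    (C.recenter hF hP).Zplus = C.discᶜ := by
  apply Set.Subset.antisymm
  · have := (C.recenter hF hP).Zplus_subset_compl_disc
    rwa [C.recenter_disc hF hP] at this
  · exact (C.recenter hF hP).subset_Zplus

/-- **Division by `t - t(P)`** stays in the ring of the disc. -/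
theorem quot_mem_ring (hF : RiemannPkg K F) {P : Place K F} (hP : P ∈ C.disc) {h : F}
    (hh : h ∈ C.ring) :
    (h - algebraMap K F (evalAt P h)) * (C.t - algebraMap K F (evalAt P C.t))⁻¹ ∈ C.ring := by
  have h1 := (C.recenter hF hP).div_mem_chart hF (h := h) (by
    rw [C.recenter_Zplus hF hP]
    exact hh)
  rw [C.recenter_Zplus hF hP] at h1
  exact h1

/-! ### The Taylor series on the ring of the disc -/

/-- The Taylor series of `h` at the centre of the disc, in the coordinate `t`. -/
noncomputable def series (h : F) : PowerSeries K := taylorSeries C.P₀ C.t h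

@[simp]
theorem coeff_series (h : F) (n : ℕ) : PowerSeries.coeff n (C.series h) = C.coeff h n :=
  coeff_taylorSeries _ _ _ _

theorem series_add (hF : RiemannPkg K F) {h h' : F} (hh : h ∈ C.ring) (hh' : h' ∈ C.ring) :
    C.series (h + h') = C.series h + C.series h' :=
  taylorSeries_add (hF.deg_one _) C.hord (C.ring_mem_valuationSubring C.P₀_mem_disc hh)
    (C.ring_mem_valuationSubring C.P₀_mem_disc hh')

theorem series_sub (hF : RiemannPkg K F) {h h' : F} (hh : h ∈ C.ring) (hh' : h' ∈ C.ring) :
    C.series (h - h') = C.series h - C.series h' :=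
  taylorSeries_sub (hF.deg_one _) C.hord (C.ring_mem_valuationSubring C.P₀_mem_disc hh)
    (C.ring_mem_valuationSubring C.P₀_mem_disc hh')

theorem series_mul (hF : RiemannPkg K F) {h h' : F} (hh : h ∈ C.ring) (hh' : h' ∈ C.ring) :
    C.series (h * h') = C.series h * C.series h' :=
  taylorSeries_mul (hF.deg_one _) C.hord (C.ring_mem_valuationSubring C.P₀_mem_disc hh)
    (C.ring_mem_valuationSubring C.P₀_mem_disc hh')

theorem series_smul (hF : RiemannPkg K F) (a : K) {h : F} (hh : h ∈ C.ring) :
    C.series (a • h) = PowerSeries.C a * C.series h :=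
  taylorSeries_smul (hF.deg_one _) C.hord a (C.ring_mem_valuationSubring C.P₀_mem_disc hh)

theorem series_algebraMap (c : K) : C.series (algebraMap K F c) = PowerSeries.C c :=
  taylorSeries_algebraMap _ _ c

theorem series_one : C.series 1 = 1 := taylorSeries_one _ _

theorem series_zero : C.series 0 = 0 := taylorSeries_zero _ _

theorem series_t (hF : RiemannPkg K F) : C.series C.t = PowerSeries.X :=
  taylorSeries_param (hF.deg_one _) C.hord

theorem series_eq_zero_iff (hF : RiemannPkg K F) {h : F} (hh : h ∈ C.ring) :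
    C.series h = 0 ↔ h = 0 :=
  taylorSeries_eq_zero_iff (hF.deg_one _) C.hord (C.ring_mem_valuationSubring C.P₀_mem_disc hh)

/-- The Taylor series as a ring hom on the ring of the disc. -/
noncomputable def seriesHom (hF : RiemannPkg K F) : C.ring →+* PowerSeries K where
  toFun h := C.series (h : F)
  map_one' := C.series_one
  map_mul' h h' := C.series_mul hF h.2 h'.2
  map_zero' := C.series_zero
  map_add' h h' := C.series_add hF h.2 h'.2

/-- **Newton step at a point of the disc**: for `h` in the ring of the disc, `P` in the disc and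
`x = t(P)`, `T(h) = h(P) + (X - x) · T((h - h(P)) / (t - x))`. -/
theorem series_quot (hF : RiemannPkg K F) {P : Place K F} (hP : P ∈ C.disc) {h : F}
    (hh : h ∈ C.ring) :
    C.series h = PowerSeries.C (evalAt P h)
      + (PowerSeries.X - PowerSeries.C (evalAt P C.t))
        * C.series ((h - algebraMap K F (evalAt P h))
            * (C.t - algebraMap K F (evalAt P C.t))⁻¹) := by
  have hq := C.quot_mem_ring hF hP hh
  have hx : algebraMap K F (evalAt P C.t) ∈ C.ring := C.algebraMap_mem_ring (C.evalAt_t_mem hF hP)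
  have htx : C.t - algebraMap K F (evalAt P C.t) ∈ C.ring := sub_mem C.t_mem_ring hx
  have hne : C.t - algebraMap K F (evalAt P C.t) ≠ 0 := (C.recenter hF hP).t_ne_zero
  have hEq : h = algebraMap K F (evalAt P h)
      + (C.t - algebraMap K F (evalAt P C.t))
        * ((h - algebraMap K F (evalAt P h)) * (C.t - algebraMap K F (evalAt P C.t))⁻¹) := by
    rw [mul_comm (h - _), ← mul_assoc, mul_inv_cancel₀ hne, one_mul]
    ring
  conv_lhs => rw [hEq]
  rw [C.series_add hF (C.algebraMap_mem_ring (C.ring_evalAt_mem hF hP hh)) (mul_mem htx hq),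
    C.series_mul hF htx hq, C.series_sub hF C.t_mem_ring hx, C.series_algebraMap,
    C.series_algebraMap, C.series_t hF]

end DiscCoord

end Fermat.Agent.FF2.Disc
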