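import Mathlib
import Fermat.Agent.FF2.Disc.Recenter
import Fermat.Agent.FF2.Weier.DivDiff

/-!
# MOONSHOT S19, node (HC), part 1 (T9): the bridge from honest values to `evalM`

`C : DiscCoord S Z` a residue disc with integral coordinate `t`.  `𝒪` any commutative ring with an
ideal `J` such that `𝒪` is `J`-adically complete (e.g. `A ⧸ ℓ^N` with a nilpotent `J`, or a
completion), `ι : A →+* 𝒪` a ring hom.

* `evalM_map_eq_of_forall_congr` (pure algebra): if `v ≡ ∑_{i<n} aᵢ xⁱ mod xⁿ` for all `n` and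
  `ι x ∈ J`, then `evalM J (ι x) (f.map ι) = ι v`.
* `C.seriesA hF hh : A⟦X⟧` : the Taylor series with coefficients in the valuation ring;
  ring-hom properties; `seriesA_quot` (Newton step).
* `C.evalM_seriesA` : **(T9)** `evalM J (ι x) ((T h).map ι) = ι (h(P))` for `P` in the disc with
  `x = t(P)`, `ι x ∈ J`: honest values are computed by the Taylor series in any complete `𝒪`.
* `C.dq_seriesA`, `C.dd_seriesA` : the divided difference `(T h)[ι x, ι y]` is `ι` of the honest
  value at `Q` of the honest function `(h - h(P)) / (t - x)`.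
* `C.dd_seriesA_eq_zero` : if `h` vanishes on the divisor `P + Q` (`P, Q` in the disc, possibly
  equal) then `evalM (ι x) (T h) = 0` and `(T h)[ι x, ι y] = 0` — **no division in `𝒪`**.
-/

set_option autoImplicit false

namespace Fermat.Agent.FF2.Disc

open AlgebraicCurve Fermat.Agent.Red Fermat.Agent.X0 WithZero Fermat.Agent.FF2.Weier

section Algebra

variable {R 𝒪 : Type*} [CommRing R] [CommRing 𝒪] (J : Ideal 𝒪) [IsAdicComplete J 𝒪]
  (ι : R →+* 𝒪)

/-- A value given by congruences modulo all powers of `x` is the `evalM`-value. -/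
theorem evalM_map_eq_of_forall_congr (f : PowerSeries R) (x v : R) (hx : ι x ∈ J)
    (hcong : ∀ n : ℕ, ∃ c : R,
      v = ∑ i ∈ Finset.range n, PowerSeries.coeff i f * x ^ i + x ^ n * c) :
    evalM J (ι x) hx (f.map ι) = ι v := by
  have hH : IsHausdorff J 𝒪 := inferInstance
  rw [← sub_eq_zero]
  refine hH.haus' _ fun n => ?_
  rw [SModEq.zero, smul_eq_mul, Ideal.mul_top]
  obtain ⟨c, hc⟩ := hcong n
  have h1 := evalM_sub_sum_mem hx (f.map ι) n
  have h2 : ι v - ∑ i ∈ Finset.range n, PowerSeries.coeff i (f.map ι) * ι x ^ i ∈ J ^ n := by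
    have : ι v = ∑ i ∈ Finset.range n, PowerSeries.coeff i (f.map ι) * ι x ^ i
        + ι x ^ n * ι c := by
      conv_lhs => rw [hc]
      rw [map_add, map_sum, map_mul, map_pow]
      congr 1
      refine Finset.sum_congr rfl fun i _ => ?_
      rw [map_mul, map_pow, PowerSeries.coeff_map]
    rw [this, add_sub_cancel_left]
    exact Ideal.mul_mem_right _ _ (Ideal.pow_mem_pow hx n)
  have := sub_mem h1 h2
  rwa [sub_sub_sub_cancel_right] at this

end Algebra

variable {K F k Ft : Type*} [Field K] [Field F] [Algebra K F] [Field k] [Field Ft]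
  [Algebra k Ft] {A : ValuationSubring K} {π : A →+* k}

namespace DiscCoord

variable {S : RedSetup (F := F) (Ft := Ft) A π} {Z : Set (Place K F)} (C : DiscCoord S Z)

/-- The Taylor series of a function of the ring of the disc, with coefficients in `A`. -/
noncomputable def seriesA (hF : RiemannPkg K F) {h : F} (hh : h ∈ C.ring) : PowerSeries A :=
  PowerSeries.mk fun n => ⟨C.coeff h n, C.ring_coeff_mem hF hh n⟩

@[simp]
theorem coeff_seriesA (hF : RiemannPkg K F) {h : F} (hh : h ∈ C.ring) (n : ℕ) :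
    ((PowerSeries.coeff n (C.seriesA hF hh) : A) : K) = C.coeff h n := by
  rw [seriesA, PowerSeries.coeff_mk]

theorem map_subtype_seriesA (hF : RiemannPkg K F) {h : F} (hh : h ∈ C.ring) :
    (C.seriesA hF hh).map A.subtype = C.series h := by
  ext n
  rw [PowerSeries.coeff_map, coeff_series]
  exact C.coeff_seriesA hF hh n

theorem map_subtype_injective :
    Function.Injective (PowerSeries.map (A.subtype) : PowerSeries A → PowerSeries K) := by
  intro f g hfg
  ext n
  have := congrArg (PowerSeries.coeff n) hfg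
  rw [PowerSeries.coeff_map, PowerSeries.coeff_map] at this
  exact this

theorem seriesA_congr (hF : RiemannPkg K F) {h h' : F} (hh : h ∈ C.ring) (hh' : h' ∈ C.ring)
    (he : h = h') : C.seriesA hF hh = C.seriesA hF hh' := by
  subst he
  rfl

theorem seriesA_add (hF : RiemannPkg K F) {h h' : F} (hh : h ∈ C.ring) (hh' : h' ∈ C.ring) :
    C.seriesA hF (add_mem hh hh') = C.seriesA hF hh + C.seriesA hF hh' := by
  apply map_subtype_injective
  rw [map_add, map_subtype_seriesA, map_subtype_seriesA, map_subtype_seriesA,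
    C.series_add hF hh hh']

theorem seriesA_mul (hF : RiemannPkg K F) {h h' : F} (hh : h ∈ C.ring) (hh' : h' ∈ C.ring) :
    C.seriesA hF (mul_mem hh hh') = C.seriesA hF hh * C.seriesA hF hh' := by
  apply map_subtype_injective
  rw [map_mul, map_subtype_seriesA, map_subtype_seriesA, map_subtype_seriesA,
    C.series_mul hF hh hh']

theorem seriesA_algebraMap (hF : RiemannPkg K F) (a : A) :
    C.seriesA hF (C.algebraMap_mem_ring a.2) = PowerSeries.C a := by
  apply map_subtype_injective
  rw [map_subtype_seriesA, C.series_algebraMap, PowerSeries.map_C]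
  rfl

theorem seriesA_t (hF : RiemannPkg K F) : C.seriesA hF C.t_mem_ring = PowerSeries.X := by
  apply map_subtype_injective
  rw [map_subtype_seriesA, C.series_t hF, PowerSeries.map_X]

/-- The Taylor series of an `A`-linear combination. -/
theorem seriesA_sum (hF : RiemannPkg K F) {ι' : Type*} (s : Finset ι') (c : ι' → A) (e : ι' → F)
    (he : ∀ b, e b ∈ C.ring)
    (hmem : ∑ b ∈ s, algebraMap K F (c b : K) * e b ∈ C.ring) :
    C.seriesA hF hmem = ∑ b ∈ s, PowerSeries.C (c b) * C.seriesA hF (he b) := by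
  classical
  induction s using Finset.induction_on with
  | empty =>
    apply map_subtype_injective
    rw [map_subtype_seriesA]
    simp [C.series_zero]
  | insert a s ha ih =>
    have hs : ∑ b ∈ s, algebraMap K F (c b : K) * e b ∈ C.ring :=
      sum_mem fun b _ => mul_mem (C.algebraMap_mem_ring (c b).2) (he b)
    have ha' : algebraMap K F (c a : K) * e a ∈ C.ring :=
      mul_mem (C.algebraMap_mem_ring (c a).2) (he a)
    have key : C.seriesA hF (add_mem ha' hs)
        = ∑ b ∈ insert a s, PowerSeries.C (c b) * C.seriesA hF (he b) := by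
      rw [Finset.sum_insert ha, ← ih hs, ← C.seriesA_algebraMap hF (c a),
        ← C.seriesA_mul hF (C.algebraMap_mem_ring (c a).2) (he a), ← C.seriesA_add hF ha' hs]
    rw [← key]
    exact C.seriesA_congr hF _ _ (Finset.sum_insert ha)

/-- **Newton step** with coefficients in `A`. -/
theorem seriesA_quot (hF : RiemannPkg K F) {P : Place K F} (hP : P ∈ C.disc) {h : F}
    (hh : h ∈ C.ring) :
    C.seriesA hF hh
      = (PowerSeries.X - PowerSeries.C ⟨evalAt P C.t, C.evalAt_t_mem hF hP⟩)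
          * C.seriesA hF (C.quot_mem_ring hF hP hh)
        + PowerSeries.C ⟨evalAt P h, C.ring_evalAt_mem hF hP hh⟩ := by
  apply map_subtype_injective
  rw [map_add, map_mul, map_sub, map_subtype_seriesA, map_subtype_seriesA, PowerSeries.map_X,
    PowerSeries.map_C, PowerSeries.map_C, C.series_quot hF hP hh, add_comm]
  rfl

section Complete

variable {𝒪 : Type*} [CommRing 𝒪] (J : Ideal 𝒪) [IsAdicComplete J 𝒪] (ι : A →+* 𝒪)

/-- **(T9) Honest values are computed by the Taylor series** in any complete `𝒪`. -/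
theorem evalM_seriesA (hF : RiemannPkg K F) {P : Place K F} (hP : P ∈ C.disc) {h : F}
    (hh : h ∈ C.ring) (hx : ι ⟨evalAt P C.t, C.evalAt_t_mem hF hP⟩ ∈ J) :
    evalM J (ι ⟨evalAt P C.t, C.evalAt_t_mem hF hP⟩) hx ((C.seriesA hF hh).map ι)
      = ι ⟨evalAt P h, C.ring_evalAt_mem hF hP hh⟩ := by
  apply evalM_map_eq_of_forall_congr
  intro n
  refine ⟨⟨evalAt P (C.chain h n), C.ring_evalAt_mem hF hP (C.ring_chain_mem hF hh n)⟩, ?_⟩
  apply Subtype.ext
  have := C.ring_evalAt_eq_sum_add hF hP hh n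
  push_cast
  rw [this]
  congr 1
  refine Finset.sum_congr rfl fun i _ => ?_
  rw [C.coeff_seriesA hF hh i]

/-- The quotient series `dq` of the Taylor series at `ι x` is the Taylor series of the honest
quotient `(h - h(P)) / (t - x)`. -/
theorem dq_seriesA (hF : RiemannPkg K F) {P : Place K F} (hP : P ∈ C.disc) {h : F}
    (hh : h ∈ C.ring) (hx : ι ⟨evalAt P C.t, C.evalAt_t_mem hF hP⟩ ∈ J) :
    dq J (ι ⟨evalAt P C.t, C.evalAt_t_mem hF hP⟩) hx ((C.seriesA hF hh).map ι)
      = (C.seriesA hF (C.quot_mem_ring hF hP hh)).map ι := by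
  refine ((dq_unique hx (c := ι ⟨evalAt P h, C.ring_evalAt_mem hF hP hh⟩) ?_).1).symm
  conv_lhs => rw [C.seriesA_quot hF hP hh]
  rw [map_add, map_mul, map_sub, PowerSeries.map_X, PowerSeries.map_C, PowerSeries.map_C]

/-- **The divided difference of the Taylor series** at `(ι x, ι y)`, `x = t(P)`, `y = t(Q)`, is
`ι` of the honest value at `Q` of `(h - h(P)) / (t - x)`. -/
theorem dd_seriesA (hF : RiemannPkg K F) {P Q : Place K F} (hP : P ∈ C.disc) (hQ : Q ∈ C.disc)
    {h : F} (hh : h ∈ C.ring) (hx : ι ⟨evalAt P C.t, C.evalAt_t_mem hF hP⟩ ∈ J)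
    (hy : ι ⟨evalAt Q C.t, C.evalAt_t_mem hF hQ⟩ ∈ J) :
    dd J (ι ⟨evalAt P C.t, C.evalAt_t_mem hF hP⟩) (ι ⟨evalAt Q C.t, C.evalAt_t_mem hF hQ⟩) hx hy
        ((C.seriesA hF hh).map ι)
      = ι ⟨evalAt Q ((h - algebraMap K F (evalAt P h))
            * (C.t - algebraMap K F (evalAt P C.t))⁻¹),
          C.ring_evalAt_mem hF hQ (C.quot_mem_ring hF hP hh)⟩ := by
  rw [dd, C.dq_seriesA J ι hF hP hh hx, C.evalM_seriesA J ι hF hQ (C.quot_mem_ring hF hP hh) hy]

end Complete

/-- If `h` (in the ring of the disc) vanishes on the divisor `P + Q`, `P, Q` in the disc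
(`2 ≤ ord_P h` if `P = Q`), then the honest quotient `(h - h(P)) / (t - t(P))` vanishes at `Q`. -/
theorem evalAt_quot_eq_zero (hF : RiemannPkg K F) {P Q : Place K F} (hP : P ∈ C.disc)
    (hQ : Q ∈ C.disc) {h : F} (hh : h ∈ C.ring) (hzP : evalAt P h = 0) (hzQ : evalAt Q h = 0)
    (hdouble : P = Q → h = 0 ∨ 2 ≤ P.ord h) :
    evalAt Q ((h - algebraMap K F (evalAt P h))
      * (C.t - algebraMap K F (evalAt P C.t))⁻¹) = 0 := by
  have hq := C.quot_mem_ring hF hP hh
  rw [hzP, map_zero, sub_zero] at hq ⊢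
  have hne : C.t - algebraMap K F (evalAt P C.t) ≠ 0 := (C.recenter hF hP).t_ne_zero
  rw [C.ring_evalAt_eq_zero_iff hF hQ hq]
  rcases eq_or_ne h 0 with rfl | h0
  · left
    rw [zero_mul]
  right
  rw [Q.ord_mul h0 (inv_ne_zero hne), Q.ord_inv]
  by_cases hPQ : P = Q
  · subst hPQ
    have h2 := (hdouble rfl).resolve_left h0
    rw [C.ord_sub_evalAt_eq_one hF hP]
    omega
  · rw [C.ord_sub_evalAt_eq_zero hF hP hQ (Ne.symm hPQ)]
    have := ((C.ring_evalAt_eq_zero_iff hF hQ hh).1 hzQ).resolve_left h0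
    omega

section Complete

variable {𝒪 : Type*} [CommRing 𝒪] (J : Ideal 𝒪) [IsAdicComplete J 𝒪] (ι : A →+* 𝒪)

/-- **Double condition, honest form ⇒ series form**: if `h` vanishes on `P + Q` then the two
linear conditions of the universal chord hold for `(T h).map ι` at `(ι x, ι y)`. -/
theorem evalM_eq_zero_and_dd_eq_zero (hF : RiemannPkg K F) {P Q : Place K F} (hP : P ∈ C.disc)
    (hQ : Q ∈ C.disc) {h : F} (hh : h ∈ C.ring) (hzP : evalAt P h = 0) (hzQ : evalAt Q h = 0)
    (hdouble : P = Q → h = 0 ∨ 2 ≤ P.ord h)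
    (hx : ι ⟨evalAt P C.t, C.evalAt_t_mem hF hP⟩ ∈ J)
    (hy : ι ⟨evalAt Q C.t, C.evalAt_t_mem hF hQ⟩ ∈ J) :
    evalM J (ι ⟨evalAt P C.t, C.evalAt_t_mem hF hP⟩) hx ((C.seriesA hF hh).map ι) = 0 ∧
    dd J (ι ⟨evalAt P C.t, C.evalAt_t_mem hF hP⟩) (ι ⟨evalAt Q C.t, C.evalAt_t_mem hF hQ⟩) hx hy
        ((C.seriesA hF hh).map ι) = 0 := by
  constructor
  · rw [C.evalM_seriesA J ι hF hP hh hx]
    have : (⟨evalAt P h, C.ring_evalAt_mem hF hP hh⟩ : A) = 0 := Subtype.ext hzP
    rw [this, map_zero]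
  · rw [C.dd_seriesA J ι hF hP hQ hh hx hy]
    have : (⟨evalAt Q ((h - algebraMap K F (evalAt P h))
            * (C.t - algebraMap K F (evalAt P C.t))⁻¹),
          C.ring_evalAt_mem hF hQ (C.quot_mem_ring hF hP hh)⟩ : A) = 0 :=
      Subtype.ext (C.evalAt_quot_eq_zero hF hP hQ hh hzP hzQ hdouble)
    rw [this, map_zero]

end Complete

end DiscCoord

end Fermat.Agent.FF2.Disc
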