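import Mathlib
import Fermat.Agent.FF2.Disc.Bridge

/-!
# MOONSHOT S19, node (HC): exact divisibilities of the Taylor series (finite-level interface)

`C : DiscCoord S Z`, `h` in the ring of the disc, coefficients in the valuation ring `A`
(no completion, no evaluation of series):

* `X_sub_C_dvd_seriesA` : if `h(P) = 0`, `P` in the disc, `x = t(P)`, then `(X - C x) ∣ T(h)` in
  `A⟦X⟧`.
* `mul_dvd_seriesA` : if `h` vanishes on the divisor `P + Q` (`P, Q` in the disc; `2 ≤ ord_P h` if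
  `P = Q`) then `(X - C x)(X - C y) ∣ T(h)` in `A⟦X⟧`.
-/

set_option autoImplicit false

namespace Fermat.Agent.FF2.Disc

open AlgebraicCurve Fermat.Agent.Red Fermat.Agent.X0 WithZero

variable {K F k Ft : Type*} [Field K] [Field F] [Algebra K F] [Field k] [Field Ft]
  [Algebra k Ft] {A : ValuationSubring K} {π : A →+* k}

namespace DiscCoord

variable {S : RedSetup (F := F) (Ft := Ft) A π} {Z : Set (Place K F)} (C : DiscCoord S Z)

/-- A zero in the disc gives a linear factor of the Taylor series, over `A`. -/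
theorem seriesA_eq_mul_of_evalAt_eq_zero (hF : RiemannPkg K F) {P : Place K F} (hP : P ∈ C.disc)
    {h : F} (hh : h ∈ C.ring) (hz : evalAt P h = 0) :
    C.seriesA hF hh
      = (PowerSeries.X - PowerSeries.C ⟨evalAt P C.t, C.evalAt_t_mem hF hP⟩)
          * C.seriesA hF (C.quot_mem_ring hF hP hh) := by
  have h1 := C.seriesA_quot hF hP hh
  have h0 : (⟨evalAt P h, C.ring_evalAt_mem hF hP hh⟩ : A) = 0 := Subtype.ext hz
  rw [h0, map_zero, add_zero] at h1
  exact h1

theorem X_sub_C_dvd_seriesA (hF : RiemannPkg K F) {P : Place K F} (hP : P ∈ C.disc)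
    {h : F} (hh : h ∈ C.ring) (hz : evalAt P h = 0) :
    (PowerSeries.X - PowerSeries.C ⟨evalAt P C.t, C.evalAt_t_mem hF hP⟩ : PowerSeries A)
      ∣ C.seriesA hF hh :=
  ⟨_, C.seriesA_eq_mul_of_evalAt_eq_zero hF hP hh hz⟩

/-- Two zeros in the disc (a double zero if they coincide) give a quadratic factor of the Taylor
series, over `A`. -/
theorem mul_dvd_seriesA (hF : RiemannPkg K F) {P Q : Place K F} (hP : P ∈ C.disc)
    (hQ : Q ∈ C.disc) {h : F} (hh : h ∈ C.ring) (hzP : evalAt P h = 0) (hzQ : evalAt Q h = 0)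
    (hdouble : P = Q → h = 0 ∨ 2 ≤ P.ord h) :
    (PowerSeries.X - PowerSeries.C ⟨evalAt P C.t, C.evalAt_t_mem hF hP⟩ : PowerSeries A)
        * (PowerSeries.X - PowerSeries.C ⟨evalAt Q C.t, C.evalAt_t_mem hF hQ⟩)
      ∣ C.seriesA hF hh := by
  have h1 := C.seriesA_eq_mul_of_evalAt_eq_zero hF hP hh hzP
  have h2 := C.seriesA_eq_mul_of_evalAt_eq_zero hF hQ (C.quot_mem_ring hF hP hh)
    (C.evalAt_quot_eq_zero hF hP hQ hh hzP hzQ hdouble)
  exact ⟨C.seriesA hF (C.quot_mem_ring hF hQ (C.quot_mem_ring hF hP hh)), by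
    conv_lhs => rw [h1, h2]
    rw [mul_assoc]⟩

end DiscCoord

end Fermat.Agent.FF2.Disc
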